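-- helper2: formal Hecke eigensystems are recursive (multiplicative + prime-power recursion).
import Mathlib
import Fermat.Prelude.Def_FormalHecke_Eigensystem

set_option autoImplicit false

namespace Fermat.Agent.Lib.Helper2

open FormalHecke

variable {R : Type*} [CommRing R]

/-- In a formal eigensystem, `a (p^j * t) = a (p^j) * a t` whenever `p ∤ t`. -/
theorem IsEigensystem.prime_pow_mul {e a : ℕ → R} (h : IsEigensystem e a) {p : ℕ} (hp : p.Prime)
    {t : ℕ} (ht : ¬ p ∣ t) : ∀ j : ℕ, a (p ^ j * t) = a (p ^ j) * a t := by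
  have key : ∀ j : ℕ, a (p ^ j * t) = a (p ^ j) * a t ∧ a (p ^ (j + 1) * t) = a (p ^ (j + 1)) * a t := by
    intro j
    induction j with
    | zero =>
      refine ⟨by simp [h.1], ?_⟩
      have h1 := h.2 p hp t
      rw [if_neg ht, mul_zero, add_zero] at h1
      simpa using h1
    | succ j ih =>
      refine ⟨ih.2, ?_⟩
      -- relation at n = p^(j+1) * t
      have h1 := h.2 p hp (p ^ (j + 1) * t)
      have hdvd : p ∣ p ^ (j + 1) * t := Dvd.dvd.mul_right (dvd_pow_self p (Nat.succ_ne_zero j)) t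
      have hdiv : p ^ (j + 1) * t / p = p ^ j * t := by
        rw [pow_succ', mul_assoc, Nat.mul_div_cancel_left _ hp.pos]
      rw [if_pos hdvd, hdiv] at h1
      -- relation at n = p^(j+1)
      have h2 := h.2 p hp (p ^ (j + 1))
      have hdvd2 : p ∣ p ^ (j + 1) := dvd_pow_self p (Nat.succ_ne_zero j)
      have hdiv2 : p ^ (j + 1) / p = p ^ j := by
        rw [pow_succ', Nat.mul_div_cancel_left _ hp.pos]
      rw [if_pos hdvd2, hdiv2] at h2
      have e1 : p * (p ^ (j + 1) * t) = p ^ (j + 1 + 1) * t := by ring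
      have e2 : p * p ^ (j + 1) = p ^ (j + 1 + 1) := by ring
      rw [e1] at h1
      rw [e2] at h2
      rw [ih.1, ih.2] at h1
      linear_combination h1 - a t * h2
  exact fun j => (key j).1

/-- A formal eigensystem is multiplicative on coprime arguments. -/
theorem IsEigensystem.mul_of_coprime {e a : ℕ → R} (h : IsEigensystem e a) :
    ∀ m n : ℕ, m.Coprime n → a (m * n) = a m * a n := by
  intro m
  induction m using Nat.recOnPosPrimePosCoprime with
  | prime_pow p j hp hj =>
    intro n hn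
    have hpn : ¬ p ∣ n := by
      intro hdvd
      have : p ∣ Nat.gcd (p ^ j) n := Nat.dvd_gcd (dvd_pow_self p hj.ne') hdvd
      rw [hn] at this
      exact hp.one_lt.ne' (Nat.dvd_one.mp this)
    exact IsEigensystem.prime_pow_mul h hp hpn j
  | zero =>
    intro n hn
    have : n = 1 := by simpa using hn
    subst this
    simp [h.1]
  | one =>
    intro n _
    simp [h.1]
  | coprime x y hx hy hxy ihx ihy =>
    intro n hn
    have hxn : x.Coprime n := Nat.Coprime.coprime_mul_right hn
    have hyn : y.Coprime n := Nat.Coprime.coprime_mul_left hn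
    have hx_yn : x.Coprime (y * n) := Nat.Coprime.mul_right hxy hxn
    rw [mul_assoc, ihx (y * n) hx_yn, ihy n hyn, ihx y hxy, mul_assoc]

/-- A formal eigensystem is recursive. -/
theorem IsEigensystem.isRecursive {e a : ℕ → R} (h : IsEigensystem e a) : IsRecursive e a := by
  refine ⟨h.1, IsEigensystem.mul_of_coprime h, ?_⟩
  intro ℓ r hℓ
  have h2 := h.2 ℓ hℓ (ℓ ^ (r + 1))
  have hdvd2 : ℓ ∣ ℓ ^ (r + 1) := dvd_pow_self ℓ (Nat.succ_ne_zero r)
  have hdiv2 : ℓ ^ (r + 1) / ℓ = ℓ ^ r := by
    rw [pow_succ', Nat.mul_div_cancel_left _ hℓ.pos]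
  rw [if_pos hdvd2, hdiv2] at h2
  have e2 : ℓ * ℓ ^ (r + 1) = ℓ ^ (r + 2) := by ring
  rw [e2] at h2
  linear_combination h2

end Fermat.Agent.Lib.Helper2
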