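-- helper2 (49a): a common eigenvector of all Hecke operators T_l (l ∤ N), U_q (q ∣ N) on
-- S_2(Gamma0 N) normalises to a `CuspForm.IsNormalizedEigenform` with q-coefficients the eigenvalues.
import Mathlib
import Fermat.Prelude.Def_FLTPrelim_Modularity
import Fermat.Prelude.Def_ModularForm_HeckeOperatorForms
import Fermat.Prelude.Def_FormalHecke_Eigensystem
import Fermat.Prelude.Thm_ModularFormClass_qCoeff_heckeT
import Fermat.Prelude.Thm_ModularFormClass_qCoeff_heckeU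
import Fermat.Prelude.Thm_CongruenceSubgroup_one_mem_strictPeriods_Gamma0
import Fermat.Agent.Lib.Helper2.FormalHecke

set_option autoImplicit false

namespace Fermat.Agent.Lib.Helper2

open UpperHalfPlane ModularFormClass CongruenceSubgroup
open scoped MatrixGroups

variable {N : ℕ} {k : ℤ}

theorem one_mem_strictPeriods (N : ℕ) :
    (1 : ℝ) ∈ (Subgroup.map (Matrix.SpecialLinearGroup.mapGL ℝ) (Gamma0 N)).strictPeriods :=
  CongruenceSubgroup.one_mem_strictPeriods_Gamma0 N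

theorem qCoeff_add (f g : CuspForm (Gamma0 N) k) (n : ℕ) :
    qCoeff ⇑(f + g) n = qCoeff ⇑f n + qCoeff ⇑g n := by
  simp only [qCoeff, FunLike.coe_add]
  rw [ModularForm.qExpansion_add one_pos (one_mem_strictPeriods N) f g, map_add]

theorem qCoeff_zero (n : ℕ) : qCoeff ⇑(0 : CuspForm (Gamma0 N) k) n = 0 := by
  simp only [qCoeff, FunLike.coe_zero]
  rw [UpperHalfPlane.qExpansion_zero, map_zero]

theorem qCoeff_smul (c : ℂ) (f : CuspForm (Gamma0 N) k) (n : ℕ) :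
    qCoeff ⇑(c • f) n = c * qCoeff ⇑f n := by
  have h1 : ⇑(c • f) = c • ⇑f := by
    ext z
    simp
  simp only [qCoeff, h1]
  rw [ModularForm.qExpansion_smul one_pos (one_mem_strictPeriods N) c f]
  simp

theorem qCoeff_cusp_zero (f : CuspForm (Gamma0 N) k) : qCoeff ⇑f 0 = 0 :=
  CuspFormClass.qExpansion_coeff_zero f one_pos (one_mem_strictPeriods N)

theorem qCoeff_heckeTLin {ℓ : ℕ} (hℓ : ℓ.Prime) (hℓN : ¬ ℓ ∣ N) (f : CuspForm (Gamma0 N) k)
    (n : ℕ) :
    qCoeff ⇑(CuspForm.heckeTLin k hℓ hℓN f) n =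
      qCoeff ⇑f (n * ℓ) + if ℓ ∣ n then (ℓ : ℂ) ^ (k - 1) * qCoeff ⇑f (n / ℓ) else 0 := by
  rw [CuspForm.coe_heckeTLin_apply,
    ModularFormClass.qCoeff_heckeT f (one_mem_strictPeriods N) hℓ.ne_zero n]
  rfl

theorem qCoeff_heckeULin [NeZero N] {q : ℕ} (hq : q.Prime) (hqN : q ∣ N)
    (f : CuspForm (Gamma0 N) k) (n : ℕ) :
    qCoeff ⇑(CuspForm.heckeULin k hqN f) n = qCoeff ⇑f (n * q) := by
  rw [CuspForm.coe_heckeULin_apply,
    ModularFormClass.qCoeff_heckeU f (one_mem_strictPeriods N) hq.ne_zero n]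
  rfl

/-- A cusp form on `Gamma0 N` all of whose `q`-coefficients vanish is zero. -/
theorem eq_zero_of_forall_qCoeff_eq_zero (f : CuspForm (Gamma0 N) k)
    (h : ∀ n, qCoeff ⇑f n = 0) : f = 0 := by
  have hq : qExpansion 1 ⇑f = 0 := by
    ext n
    simpa [qCoeff] using h n
  have hΓ := one_mem_strictPeriods N
  have : Fact (IsCusp OnePoint.infty
      (Subgroup.map (Matrix.SpecialLinearGroup.mapGL ℝ) (Gamma0 N))) :=
    ⟨Subgroup.isCusp_of_mem_strictPeriods one_pos hΓ⟩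
  have h0 : (⇑f : ℍ → ℂ) = 0 :=
    (UpperHalfPlane.qExpansion_eq_zero_iff one_pos
      (SlashInvariantFormClass.periodic_comp_ofComplex f hΓ) (ModularFormClass.holo f)
      (ModularFormClass.bdd_at_infty f)).mp hq
  exact DFunLike.coe_injective (h0.trans (FunLike.coe_zero (F := CuspForm _ k)).symm)

/-- The level-`N` weight-`k` Euler-factor character: `ℓ^(k-1)` for `ℓ ∤ N` and `0` for `ℓ ∣ N`. -/
noncomputable def eulerChar (N : ℕ) (k : ℤ) (ℓ : ℕ) : ℂ := if ℓ ∣ N then 0 else (ℓ : ℂ) ^ (k - 1)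

/-- `w` is a common eigenvector, with eigenvalues `lam`, of all `T_ℓ` (`ℓ ∤ N`) and `U_q`
(`q ∣ N`). -/
def IsHeckeEigenvector [NeZero N] (w : CuspForm (Gamma0 N) k) (lam : ℕ → ℂ) : Prop :=
  (∀ (ℓ : ℕ) (hℓ : ℓ.Prime) (hℓN : ¬ ℓ ∣ N), CuspForm.heckeTLin k hℓ hℓN w = lam ℓ • w) ∧
  (∀ (q : ℕ) (_ : q.Prime) (hqN : q ∣ N), CuspForm.heckeULin k hqN w = lam q • w)

/-- The coefficient relation satisfied by a Hecke eigenvector. -/
theorem IsHeckeEigenvector.coeff_rel [NeZero N] {w : CuspForm (Gamma0 N) k} {lam : ℕ → ℂ}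
    (h : IsHeckeEigenvector w lam) {ℓ : ℕ} (hℓ : ℓ.Prime) (n : ℕ) :
    qCoeff ⇑w (ℓ * n) + eulerChar N k ℓ * (if ℓ ∣ n then qCoeff ⇑w (n / ℓ) else 0)
      = lam ℓ * qCoeff ⇑w n := by
  by_cases hℓN : ℓ ∣ N
  · have h1 := congrArg (fun g : CuspForm (Gamma0 N) k => qCoeff ⇑g n) (h.2 ℓ hℓ hℓN)
    simp only [qCoeff_heckeULin hℓ hℓN, qCoeff_smul] at h1
    rw [eulerChar, if_pos hℓN, zero_mul, add_zero, mul_comm ℓ n]
    exact h1
  · have h1 := congrArg (fun g : CuspForm (Gamma0 N) k => qCoeff ⇑g n) (h.1 ℓ hℓ hℓN)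
    simp only [qCoeff_heckeTLin hℓ hℓN, qCoeff_smul] at h1
    rw [eulerChar, if_neg hℓN, mul_comm ℓ n, ← h1]
    split_ifs <;> ring

/-- The eigenvalue is the `ℓ`-th coefficient divided by the first. -/
theorem IsHeckeEigenvector.coeff_prime [NeZero N] {w : CuspForm (Gamma0 N) k} {lam : ℕ → ℂ}
    (h : IsHeckeEigenvector w lam) {ℓ : ℕ} (hℓ : ℓ.Prime) :
    qCoeff ⇑w ℓ = lam ℓ * qCoeff ⇑w 1 := by
  have h1 := h.coeff_rel hℓ 1
  rw [if_neg (by simpa using hℓ.one_lt.ne' : ¬ ℓ ∣ 1), mul_zero, add_zero, mul_one] at h1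
  exact h1

/-- A nonzero Hecke eigenvector has nonzero first coefficient. -/
theorem IsHeckeEigenvector.qCoeff_one_ne_zero [NeZero N] {w : CuspForm (Gamma0 N) k}
    {lam : ℕ → ℂ} (h : IsHeckeEigenvector w lam) (hw : w ≠ 0) : qCoeff ⇑w 1 ≠ 0 := by
  intro h1
  apply hw
  apply eq_zero_of_forall_qCoeff_eq_zero
  intro n
  induction n using Nat.strong_induction_on with
  | _ n ih =>
    rcases Nat.lt_or_ge n 2 with hn | hn
    · interval_cases n
      · exact qCoeff_cusp_zero w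
      · exact h1
    · -- n ≥ 2: write n = ℓ * m with ℓ = minFac n
      have hn1 : n ≠ 1 := by omega
      have hℓ : (Nat.minFac n).Prime := Nat.minFac_prime hn1
      obtain ⟨m, hm⟩ := Nat.minFac_dvd n
      have hmpos : 0 < m := by
        rcases Nat.eq_zero_or_pos m with rfl | hm0
        · omega
        · exact hm0
      have hmlt : m < n := by
        have := hℓ.one_lt
        nlinarith
      have hrel := h.coeff_rel hℓ m
      rw [← hm, ih m hmlt, mul_zero] at hrel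
      have h2 : (if Nat.minFac n ∣ m then qCoeff ⇑w (m / Nat.minFac n) else 0) = 0 := by
        split_ifs with hd
        · exact ih _ (lt_of_le_of_lt (Nat.div_le_self _ _) hmlt)
        · rfl
      rw [h2, mul_zero, add_zero] at hrel
      exact hrel

/-- A Hecke eigenvector with first coefficient `1` gives a formal eigensystem. -/
theorem IsHeckeEigenvector.isEigensystem [NeZero N] {w : CuspForm (Gamma0 N) k} {lam : ℕ → ℂ}
    (h : IsHeckeEigenvector w lam) (h1 : qCoeff ⇑w 1 = 1) :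
    FormalHecke.IsEigensystem (eulerChar N k) (qCoeff ⇑w) := by
  refine ⟨h1, fun ℓ hℓ n => ?_⟩
  rw [h.coeff_rel hℓ n, h.coeff_prime hℓ, h1, mul_one]

/-- A weight-2 Hecke eigenvector with first coefficient `1` is a normalised eigenform. -/
theorem IsHeckeEigenvector.isNormalizedEigenform [NeZero N] {w : CuspForm (Gamma0 N) 2}
    {lam : ℕ → ℂ} (h : IsHeckeEigenvector w lam) (h1 : qCoeff ⇑w 1 = 1) :
    w.IsNormalizedEigenform := by
  have hrec := IsEigensystem.isRecursive (h.isEigensystem h1)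
  refine ⟨h1, hrec.2.1, ?_, ?_⟩
  · intro p r hp hpN
    have := hrec.2.2 p r hp
    rw [eulerChar, if_neg hpN] at this
    simpa using this
  · intro p r hp hpN
    have := hrec.2.2 p r hp
    rw [eulerChar, if_pos hpN] at this
    simpa using this

theorem IsHeckeEigenvector.smul [NeZero N] {w : CuspForm (Gamma0 N) k} {lam : ℕ → ℂ}
    (h : IsHeckeEigenvector w lam) (c : ℂ) : IsHeckeEigenvector (c • w) lam := by
  refine ⟨fun ℓ hℓ hℓN => ?_, fun q hq hqN => ?_⟩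
  · rw [map_smul, h.1 ℓ hℓ hℓN, smul_comm]
  · rw [map_smul, h.2 q hq hqN, smul_comm]

/-- **49a**: a nonzero common eigenvector of all `T_ℓ` (`ℓ ∤ N`) and `U_q` (`q ∣ N`) in weight 2
gives a normalised eigenform whose prime coefficients are the eigenvalues. -/
theorem exists_isNormalizedEigenform_of_eigenvector [NeZero N]
    (w : CuspForm (Gamma0 N) 2) (hw : w ≠ 0) (lam : ℕ → ℂ)
    (hT : ∀ (ℓ : ℕ) (hℓ : ℓ.Prime) (hℓN : ¬ ℓ ∣ N), CuspForm.heckeTLin 2 hℓ hℓN w = lam ℓ • w)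
    (hU : ∀ (q : ℕ) (_ : q.Prime) (hqN : q ∣ N), CuspForm.heckeULin 2 hqN w = lam q • w) :
    ∃ f : CuspForm (Gamma0 N) 2, f.IsNormalizedEigenform ∧
      ∀ ℓ : ℕ, ℓ.Prime → qCoeff ⇑f ℓ = lam ℓ := by
  have h : IsHeckeEigenvector w lam := ⟨hT, hU⟩
  have h1 : qCoeff ⇑w 1 ≠ 0 := h.qCoeff_one_ne_zero hw
  set c : ℂ := (qCoeff ⇑w 1)⁻¹ with hc
  have hf : IsHeckeEigenvector (c • w) lam := h.smul c
  have hf1 : qCoeff ⇑(c • w) 1 = 1 := by
    rw [qCoeff_smul, hc, inv_mul_cancel₀ h1]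
  refine ⟨c • w, hf.isNormalizedEigenform hf1, fun ℓ hℓ => ?_⟩
  rw [hf.coeff_prime hℓ, hf1, mul_one]

end Fermat.Agent.Lib.Helper2
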