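-- helper2 (49c, mod-3 side): the lattice-realising form of a formal `chiNegThree`-eigensystem is a
-- mod-3 eigenvector of all `T_ℓ`, `U_q` inside the lattice of forms with integral `q`-expansion.
import Mathlib
import Fermat.Prelude.Def_CuspForm_IntegralLattice
import Fermat.Prelude.Def_CuspForm_IntegralStructure
import Fermat.Prelude.Def_FormalHecke_Eigensystem
import Fermat.Prelude.Def_ModularForm_EisensteinChiNegThree
import Fermat.Prelude.Def_FLTPrelim_Modularity
import Fermat.Agent.Lib.Helper2.HeckeEigen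

set_option autoImplicit false

namespace Fermat.Agent.Lib.Helper2

open UpperHalfPlane ModularFormClass CongruenceSubgroup EisensteinWeightOne
open scoped MatrixGroups

variable {N : ℕ} {k : ℤ}

/-! ### The integral lattice -/

theorem qCoeff_zsmul (c : ℤ) (f : CuspForm (Gamma0 N) k) (n : ℕ) :
    qCoeff ⇑(c • f) n = c * qCoeff ⇑f n := by
  have h1 : c • f = (c : ℂ) • f := by
    ext z
    simp
  rw [h1, qCoeff_smul]

theorem qCoeff_neg (f : CuspForm (Gamma0 N) k) (n : ℕ) :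
    qCoeff ⇑(-f) n = - qCoeff ⇑f n := by
  have h1 : -f = (-1 : ℂ) • f := by
    ext z
    simp
  rw [h1, qCoeff_smul]
  ring

theorem qCoeff_sub (f g : CuspForm (Gamma0 N) k) (n : ℕ) :
    qCoeff ⇑(f - g) n = qCoeff ⇑f n - qCoeff ⇑g n := by
  rw [sub_eq_add_neg, qCoeff_add, qCoeff_neg, sub_eq_add_neg]

/-- The submodule of cusp forms with integral `q`-expansion. -/
def intSubmodule (N : ℕ) (k : ℤ) : Submodule ℤ (CuspForm (Gamma0 N) k) where
  carrier := {f | ∀ n : ℕ, ∃ m : ℤ, qCoeff f n = (m : ℂ)}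
  add_mem' {f g} hf hg n := by
    obtain ⟨a, ha⟩ := hf n
    obtain ⟨b, hb⟩ := hg n
    exact ⟨a + b, by rw [qCoeff_add, ha, hb]; push_cast; ring⟩
  zero_mem' n := ⟨0, by rw [qCoeff_zero]; simp⟩
  smul_mem' c {f} hf n := by
    obtain ⟨a, ha⟩ := hf n
    exact ⟨c * a, by rw [qCoeff_zsmul, ha]; push_cast; ring⟩

theorem intLattice_eq (N : ℕ) (k : ℤ) : CuspForm.intLattice N k = intSubmodule N k :=
  Submodule.span_eq (intSubmodule N k)

theorem mem_intLattice_iff (f : CuspForm (Gamma0 N) k) :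
    f ∈ CuspForm.intLattice N k ↔ ∀ n : ℕ, ∃ m : ℤ, qCoeff f n = (m : ℂ) := by
  rw [intLattice_eq]
  rfl

theorem mem_qIntegralSet_iff (f : CuspForm (Gamma0 N) 2) :
    f ∈ CuspForm.qIntegralSet N ↔ ∀ n : ℕ, ∃ m : ℤ, qCoeff f n = (m : ℂ) := by
  unfold CuspForm.qIntegralSet
  simp only [Set.mem_ofPred_eq, Subring.mem_bot]
  constructor
  · intro h n
    obtain ⟨m, hm⟩ := h n
    exact ⟨m, by rw [← hm]⟩
  · intro h n
    obtain ⟨m, hm⟩ := h n
    exact ⟨m, by rw [hm]⟩

theorem qIntegralSet_eq (N : ℕ) :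
    CuspForm.qIntegralSet N = (CuspForm.intLattice N 2 : Set (CuspForm (Gamma0 N) 2)) := by
  ext f
  rw [mem_qIntegralSet_iff, SetLike.mem_coe, mem_intLattice_iff]

theorem qIntegralLattice_eq (N : ℕ) : CuspForm.qIntegralLattice N = CuspForm.intLattice N 2 := by
  unfold CuspForm.qIntegralLattice
  rw [qIntegralSet_eq, Submodule.span_eq]

/-- `HasIntegralBasis N` is the weight-2 integral structure. -/
theorem hasIntegralStructure_of_hasIntegralBasis (h : CuspForm.HasIntegralBasis N) :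
    CuspForm.HasIntegralStructure N 2 := by
  unfold CuspForm.HasIntegralStructure
  unfold CuspForm.HasIntegralBasis at h
  rw [← qIntegralSet_eq]
  exact h

/-- A form all of whose coefficients are integers divisible by `3` is `3` times a lattice form. -/
theorem exists_eq_three_smul (g : CuspForm (Gamma0 N) k)
    (hg : ∀ n : ℕ, ∃ m : ℤ, qCoeff ⇑g n = ((3 * m : ℤ) : ℂ)) :
    ∃ g' ∈ CuspForm.intLattice N k, g = (3 : ℤ) • g' := by
  refine ⟨(3⁻¹ : ℂ) • g, ?_, ?_⟩
  · rw [mem_intLattice_iff]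
    intro n
    obtain ⟨m, hm⟩ := hg n
    refine ⟨m, ?_⟩
    rw [qCoeff_smul, hm]
    push_cast
    field_simp
  · ext z
    simp

/-! ### Congruences mod 3 -/

theorem three_dvd_sub_chiNegThree (ℓ : ℕ) : (3 : ℤ) ∣ (ℓ : ℤ) - chiNegThree ℓ := by
  unfold chiNegThree
  have h3 : ℓ % 3 < 3 := Nat.mod_lt _ (by norm_num)
  split_ifs with h1 h2 <;> omega

theorem coeff_e1Chi3In_int (n : ℕ) :
    PowerSeries.coeff n (e1Chi3In ℤ) = if n = 0 then 1 else 6 * sigmaChi n := by
  unfold e1Chi3In e1Chi3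
  simp [PowerSeries.coeff_mk]

theorem three_dvd_coeff_bridgeProduct_sub (a : ℕ → ℤ) (n : ℕ) :
    (3 : ℤ) ∣ PowerSeries.coeff n (bridgeProduct a) - a n := by
  unfold bridgeProduct
  rw [PowerSeries.coeff_mul, Finset.Nat.sum_antidiagonal_eq_sum_range_succ_mk,
    Finset.sum_range_succ]
  simp only [PowerSeries.coeff_mk, coeff_e1Chi3In_int, Nat.sub_self, if_true, mul_one,
    add_sub_cancel_right]
  apply Finset.dvd_sum
  intro i hi
  have hi' : n - i ≠ 0 := by
    have := Finset.mem_range.mp hi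
    omega
  rw [if_neg hi']
  exact ⟨a i * (2 * sigmaChi (n - i)), by ring⟩

/-- **49c (mod-3 side).**  The lattice-realising form `v` of a formal eigensystem `a` for the
character `chiNegThree` (away from `N`) lies in the integral lattice, is not divisible by `3`
there, and is a mod-3 eigenvector of every `T_ℓ` (`ℓ ∤ N`) and `U_q` (`q ∣ N`) with eigenvalue
`a ℓ`, resp. `a q`. -/
theorem exists_mod_three_eigenvector [NeZero N] {a : ℕ → ℤ}
    (heig : FormalHecke.IsEigensystem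
      (fun ℓ => if ℓ ∣ N then 0 else ((chiNegThree ℓ : ℤ) : ℤ)) a)
    (hreal : CuspForm.IsLatticeRealized N a) :
    ∃ v : CuspForm (Gamma0 N) 2, v ∈ CuspForm.intLattice N 2 ∧
      (¬ ∃ g ∈ CuspForm.intLattice N 2, v = (3 : ℤ) • g) ∧
      (∀ (ℓ : ℕ) (hℓ : ℓ.Prime) (hℓN : ¬ ℓ ∣ N), ∃ g ∈ CuspForm.intLattice N 2,
          CuspForm.heckeTLin 2 hℓ hℓN v - (a ℓ) • v = (3 : ℤ) • g) ∧
      (∀ (q : ℕ) (_ : q.Prime) (hqN : q ∣ N), ∃ g ∈ CuspForm.intLattice N 2,
          CuspForm.heckeULin 2 hqN v - (a q) • v = (3 : ℤ) • g) := by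
  obtain ⟨v, hv, af, haf, hdiv⟩ := hreal
  -- `af n ≡ a n mod 3`
  have hcong : ∀ n, (3 : ℤ) ∣ af n - a n := by
    intro n
    have h1 := hdiv n
    have h2 := three_dvd_coeff_bridgeProduct_sub a n
    have : af n - a n = (af n - PowerSeries.coeff n (bridgeProduct a))
        + (PowerSeries.coeff n (bridgeProduct a) - a n) := by ring
    rw [this]
    exact dvd_add h1 h2
  have hvL : v ∈ CuspForm.intLattice N 2 := by
    rw [mem_intLattice_iff]
    exact fun n => ⟨af n, (haf n).symm⟩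
  refine ⟨v, hvL, ?_, ?_, ?_⟩
  · -- `v ∉ 3 L` since `a_1(v) ≡ a 1 = 1`
    rintro ⟨g, hg, hvg⟩
    rw [mem_intLattice_iff] at hg
    obtain ⟨m, hm⟩ := hg 1
    have h1 : qCoeff ⇑v 1 = ((3 * m : ℤ) : ℂ) := by
      rw [hvg, qCoeff_zsmul, hm]
      push_cast
      ring
    rw [← haf 1] at h1
    have h2 : af 1 = 3 * m := by exact_mod_cast h1
    have h3 := hcong 1
    rw [heig.1, h2] at h3
    omega
  · intro ℓ hℓ hℓN
    apply exists_eq_three_smul
    intro n
    have hrel := heig.2 ℓ hℓ n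
    beta_reduce at hrel
    rw [if_neg hℓN] at hrel
    have hχ := three_dvd_sub_chiNegThree ℓ
    by_cases hdvd : ℓ ∣ n
    · rw [if_pos hdvd] at hrel
      obtain ⟨c1, hc1⟩ := hcong (n * ℓ)
      obtain ⟨c2, hc2⟩ := hcong (n / ℓ)
      obtain ⟨c3, hc3⟩ := hcong n
      obtain ⟨c4, hc4⟩ := hχ
      refine ⟨c1 + ℓ * c2 + c4 * a (n / ℓ) - a ℓ * c3, ?_⟩
      rw [qCoeff_sub, qCoeff_heckeTLin, qCoeff_zsmul, if_pos hdvd, ← haf, ← haf, ← haf]
      have hk : ((2 : ℤ) - 1) = 1 := by norm_num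
      rw [hk, zpow_one]
      have e1 : af (n * ℓ) = a (n * ℓ) + 3 * c1 := by linarith
      have e2 : af (n / ℓ) = a (n / ℓ) + 3 * c2 := by linarith
      have e3 : af n = a n + 3 * c3 := by linarith
      have e4 : (ℓ : ℤ) = chiNegThree ℓ + 3 * c4 := by linarith
      have e5 : a (n * ℓ) = a ℓ * a n - chiNegThree ℓ * a (n / ℓ) := by
        rw [mul_comm n ℓ]; linarith
      have key : af (n * ℓ) + (ℓ : ℤ) * af (n / ℓ) - a ℓ * af n
          = 3 * (c1 + ℓ * c2 + c4 * a (n / ℓ) - a ℓ * c3) := by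
        rw [e1, e2, e3, e5]
        have : (ℓ : ℤ) * (a (n / ℓ) + 3 * c2)
            = (chiNegThree ℓ + 3 * c4) * a (n / ℓ) + 3 * (ℓ * c2) := by
          rw [← e4]; ring
        rw [this]
        ring
      exact_mod_cast congrArg (Int.cast : ℤ → ℂ) key
    · rw [if_neg hdvd, mul_zero, add_zero] at hrel
      obtain ⟨c1, hc1⟩ := hcong (n * ℓ)
      obtain ⟨c3, hc3⟩ := hcong n
      refine ⟨c1 - a ℓ * c3, ?_⟩
      rw [qCoeff_sub, qCoeff_heckeTLin, qCoeff_zsmul, if_neg hdvd, ← haf, ← haf, add_zero]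
      have e1 : af (n * ℓ) = a (n * ℓ) + 3 * c1 := by linarith
      have e3 : af n = a n + 3 * c3 := by linarith
      have e5 : a (n * ℓ) = a ℓ * a n := by rw [mul_comm n ℓ]; linarith
      have key : af (n * ℓ) - a ℓ * af n = 3 * (c1 - a ℓ * c3) := by
        rw [e1, e3, e5]; ring
      exact_mod_cast congrArg (Int.cast : ℤ → ℂ) key
  · intro q hq hqN
    apply exists_eq_three_smul
    intro n
    have hrel := heig.2 q hq n
    beta_reduce at hrel
    rw [if_pos hqN, zero_mul, add_zero] at hrel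
    obtain ⟨c1, hc1⟩ := hcong (n * q)
    obtain ⟨c3, hc3⟩ := hcong n
    refine ⟨c1 - a q * c3, ?_⟩
    rw [qCoeff_sub, qCoeff_heckeULin hq, qCoeff_zsmul, ← haf, ← haf]
    have e1 : af (n * q) = a (n * q) + 3 * c1 := by linarith
    have e3 : af n = a n + 3 * c3 := by linarith
    have e5 : a (n * q) = a q * a n := by rw [mul_comm n q]; linarith
    have key : af (n * q) - a q * af n = 3 * (c1 - a q * c3) := by
      rw [e1, e3, e5]; ring
    exact_mod_cast congrArg (Int.cast : ℤ → ℂ) key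

end Fermat.Agent.Lib.Helper2
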